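/-
S25 package DICT, leaves P2, P3, P4 (helper5590), from the shared sheaf library SLIB
(`SLib/AffineInv/*` helper9105, `SLib/IsoLocal.lean` helper2830):
* P2 `isQuasicoherent_of_isInvertible` : Prelude-invertible ⟹ quasi-coherent;
* P3 `isLineBundle_toGlued`            : sections of an invertible module on the two charts
                                         are invertible modules;
* P4 `isInvertible_of_isLineBundle_toGlued` : the converse.
No sorry.
-/
import Fermat.Agent.S25.DICT.AtlasDefs
import Fermat.Agent.S25.SLib.AffineInv.SpecInvertible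
import Fermat.Agent.S25.SLib.IsoLocal

set_option autoImplicit false

universe u

open CategoryTheory AlgebraicGeometry Opposite

namespace Fermat.Agent.S25.DICT.H5590

/-- **P2** (SLIB `AffineInv.isQuasicoherent_of_isInvertible`). -/
theorem isQuasicoherent_of_isInvertible {Y : Scheme.{u}} (M : Y.Modules)
    (hM : Scheme.Modules.IsInvertible M) : M.IsQuasicoherent :=
  SLib.AffineInv.isQuasicoherent_of_isInvertible hM

section generic

variable {R : Type u} [CommRing R] {𝔹 : TwoChart R} {X : Scheme.{u}} (𝒜 : Atlas X 𝔹)

/-- Sections over a chart of an invertible module form an invertible module. -/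
theorem invertible_chart {A : Type u} [CommRing A] (φ : Spec (CommRingCat.of A) ⟶ X)
    [IsOpenImmersion φ] (M : X.Modules) (hM : Scheme.Modules.IsInvertible M) :
    Module.Invertible A
      (((modulesSpecToSheaf (R := CommRingCat.of A)).obj (M.restrict φ)).presheaf.obj (op ⊤)) :=
  SLib.AffineInv.invertible_Γ_of_isInvertible (R := CommRingCat.of A) (M.restrict φ)
    (SLib.isInvertible_restrict hM φ)

/-- **P3** sections of an invertible module on the charts are invertible modules. -/
theorem isLineBundle_toGlued (M : X.Modules) [M.IsQuasicoherent]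
    (hM : Scheme.Modules.IsInvertible M) : (𝒜.toGlued M).IsLineBundle where
  inv₁ := invertible_chart 𝒜.φ₁ M hM
  inv₂ := invertible_chart 𝒜.φ₂ M hM

/-- A quasi-coherent module whose sections over a chart are invertible is invertible on the
chart. -/
theorem isInvertible_pullback_chart {A : Type u} [CommRing A]
    (φ : Spec (CommRingCat.of A) ⟶ X) [IsOpenImmersion φ] (M : X.Modules) [M.IsQuasicoherent]
    (h : Module.Invertible A
      (((modulesSpecToSheaf (R := CommRingCat.of A)).obj (M.restrict φ)).presheaf.obj (op ⊤))) :
    Scheme.Modules.IsInvertible ((Scheme.Modules.pullback φ).obj M) := by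
  haveI : IsIso (Scheme.Modules.fromTildeΓ (R := CommRingCat.of A) (M.restrict φ)) :=
    Scheme.Modules.isIso_fromTildeΓ_of_isQuasicoherent (R := CommRingCat.of A) (M.restrict φ)
  have h1 : Scheme.Modules.IsInvertible (tilde
      (((modulesSpecToSheaf (R := CommRingCat.of A)).obj (M.restrict φ)).presheaf.obj (op ⊤))) :=
    (SLib.AffineInv.isInvertible_tilde_iff (R := CommRingCat.of A) _).mpr h
  have h2 : Scheme.Modules.IsInvertible (M.restrict φ) :=
    SLib.isInvertible_of_iso
      (asIso (Scheme.Modules.fromTildeΓ (R := CommRingCat.of A) (M.restrict φ))) h1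
  exact SLib.isInvertible_of_iso ((Scheme.Modules.restrictFunctorIsoPullback φ).app M) h2

/-- **P4** converse of P3. -/
theorem isInvertible_of_isLineBundle_toGlued (M : X.Modules) [M.IsQuasicoherent]
    (hM : (𝒜.toGlued M).IsLineBundle) : Scheme.Modules.IsInvertible M := by
  let Y : Bool → Scheme.{u} := fun b =>
    if b then Spec (CommRingCat.of 𝔹.B₁) else Spec (CommRingCat.of 𝔹.B₂)
  let f : ∀ b, Y b ⟶ X := fun b => by
    cases b
    · exact 𝒜.φ₂
    · exact 𝒜.φ₁
  haveI : ∀ b, IsOpenImmersion (f b) := by
    intro b
    cases b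
    · exact 𝒜.isOpenImmersion₂
    · exact 𝒜.isOpenImmersion₁
  apply SLib.isInvertible_of_immersions M Y f
  · intro x
    have hx : x ∈ Set.range 𝒜.φ₁ ∪ Set.range 𝒜.φ₂ := by rw [𝒜.cover]; trivial
    rcases hx with hx | hx
    · exact ⟨true, hx⟩
    · exact ⟨false, hx⟩
  · intro b
    cases b
    · exact isInvertible_pullback_chart 𝒜.φ₂ M hM.inv₂
    · exact isInvertible_pullback_chart 𝒜.φ₁ M hM.inv₁

end generic

end Fermat.Agent.S25.DICT.H5590
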