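/-
S25 / DICT (helper5590): quasi-coherence is local on open immersions.

* `isQuasicoherent_over_of_presentation` : a presentation of `F.restrict W.ι` gives
  quasi-coherence of `F.over W`;
* `isQuasicoherent_of_charts` : if `X` is covered by the ranges of open immersions `j i` and every
  `F.restrict (j i)` has a (global) presentation, then `F` is quasi-coherent;
* `isQuasicoherent_of_tilde_charts` : the case where `F.restrict (j i) ≅ tilde (N i)`.
Mathlib only.
-/
import Mathlib

set_option autoImplicit false

universe u

open CategoryTheory Limits AlgebraicGeometry TopologicalSpace Opposite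

namespace Fermat.Agent.S25.DICT.H5590

noncomputable section

variable {X : Scheme.{u}}

set_option backward.isDefEq.respectTransparency false in
/-- A presentation of the restriction of `F` to an open subscheme `W` gives the quasi-coherence
of `F` over `W` (in the sense of the over-site). -/
theorem isQuasicoherent_over_of_presentation (F : X.Modules) (W : X.Opens)
    (P : (F.restrict W.ι).Presentation) :
    SheafOfModules.IsQuasicoherent.{u, u, u} (F.over W) := by
  have : PreservesColimitsOfSize.{u, u} (Scheme.Modules.overEquiv W).inverse :=
    (Scheme.Modules.overEquiv W).symm.toAdjunction.leftAdjoint_preservesColimits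
  let P₁ := P.map (Scheme.Modules.overEquiv W).inverse
    (TopologicalSpace.Opens.sheafOfModulesEquivOverInverseUnit _ _).symm
  let i₁ : (Scheme.Modules.overEquiv W).inverse.obj (F.restrict W.ι) ≅ F.over W :=
    (Scheme.Modules.overEquiv W).inverse.mapIso ((Scheme.Modules.overFunctorEquiv W).app F).symm ≪≫
      ((Scheme.Modules.overEquiv W).unitIso.app _).symm
  exact (SheafOfModules.Presentation.ofIsIso.{u, u, u} i₁.hom P₁).isQuasicoherent

set_option backward.isDefEq.respectTransparency false in
/-- A presentation of the restriction of `F` along an open immersion `j` gives a presentation of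
the restriction of `F` to the open subscheme `range j`. -/
def presentationOpensRange (F : X.Modules) {Y : Scheme.{u}} (j : Y ⟶ X) [IsOpenImmersion j]
    (P : (F.restrict j).Presentation) : (F.restrict j.opensRange.ι).Presentation := by
  have h : j.isoOpensRange.inv ≫ j = j.opensRange.ι := by simp
  let P₁ := Scheme.Modules.presentationRestrict j.isoOpensRange.inv P
  let i₁ : (F.restrict j).restrict j.isoOpensRange.inv ≅ F.restrict j.opensRange.ι :=
    ((Scheme.Modules.restrictFunctorComp j.isoOpensRange.inv j).app F).symm ≪≫
      (Scheme.Modules.restrictFunctorCongr h).app F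
  exact SheafOfModules.Presentation.ofIsIso.{u, u, u} i₁.hom P₁

/-- **Quasi-coherence is local on charts.** -/
theorem isQuasicoherent_of_charts (F : X.Modules) {ι : Type u} (Y : ι → Scheme.{u})
    (j : ∀ i, Y i ⟶ X) [∀ i, IsOpenImmersion (j i)]
    (hcov : ∀ x : X, ∃ i, x ∈ Set.range (j i))
    (P : ∀ i, Nonempty (F.restrict (j i)).Presentation) : F.IsQuasicoherent := by
  have hc : (Opens.grothendieckTopology X).CoversTop (fun i => (j i).opensRange) := by
    rw [Opens.coversTop_iff]
    refine eq_top_iff.mpr fun x _ => Opens.mem_iSup.mpr ?_
    obtain ⟨i, hi⟩ := hcov x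
    exact ⟨i, hi⟩
  have : ∀ i, SheafOfModules.IsQuasicoherent.{u, u, u} (F.over (j i).opensRange) := fun i =>
    isQuasicoherent_over_of_presentation F _ (presentationOpensRange F (j i) (P i).some)
  exact SheafOfModules.IsQuasicoherent.of_coversTop F _ hc

/-- The tilde of a module has a (global) presentation. -/
def presentationTildeTop {R : CommRingCat.{u}} (M : ModuleCat.{u} R) :
    (tilde M).Presentation :=
  presentationTilde.{u} M .univ (by simp) _ (Submodule.span_eq _)

set_option backward.isDefEq.respectTransparency false in
/-- A module which is a tilde on every chart of a cover by open immersions of affine schemes is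
quasi-coherent. -/
theorem isQuasicoherent_of_tilde_charts (F : X.Modules) {ι : Type u} (R : ι → CommRingCat.{u})
    (j : ∀ i, Spec (R i) ⟶ X) [∀ i, IsOpenImmersion (j i)]
    (hcov : ∀ x : X, ∃ i, x ∈ Set.range (j i))
    (N : ∀ i, ModuleCat.{u} (R i)) (e : ∀ i, Nonempty (F.restrict (j i) ≅ tilde (N i))) :
    F.IsQuasicoherent :=
  isQuasicoherent_of_charts F (fun i => Spec (R i)) j hcov fun i =>
    ⟨SheafOfModules.Presentation.ofIsIso.{u, u, u} (e i).some.inv (presentationTildeTop (N i))⟩

end

end Fermat.Agent.S25.DICT.H5590
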