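/-
S25 / DICT leaf P5 (helper5590): every glued module over the two-chart `𝔹` is (isomorphic to)
`𝒜.toGlued F` for a quasi-coherent module `F` on a scheme `X` with a two-chart atlas `𝒜`.

`F := ofGlued N` is helper5770's fibre product `j₁⁎Ñ₁ ×_{j₁₂⁎Ñ₁₂} j₂⁎Ñ₂`
(`DICT/H5770/OfGlued.lean`, verbatim copy of `SM3/OfGlued5770.lean`, namespace renamed); here:
* `atlas5770` : helper5771's `Atlas X 𝔹` gives helper5770's `Atlas 𝔹 X`;
* `isQuasicoherent_ofGlued` : `ofGlued N` is quasi-coherent (it is a tilde on both charts,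
  `QcLocal.lean`);
* `ofGluedIso` : `N ≅ toGlued (ofGlued N)` (from `ofGluedEquiv₁/₂/₁₂`, `ofGluedSec_res₁/₂`);
* `exists_toGlued_iso` : the leaf P5, exact statement of `DICT/Plan.lean`.
-/
import Fermat.Agent.S25.DICT.ToGlued
import Fermat.Agent.S25.DICT.H5770.OfGlued
import Fermat.Agent.S25.DICT.H5590.QcLocal

set_option autoImplicit false

universe u

open CategoryTheory AlgebraicGeometry TopologicalSpace Opposite

namespace Fermat.Agent.S25.DICT.H5590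

noncomputable section

variable {R : Type u} [CommRing R] {𝔹 : TwoChart R} {X : Scheme.{u}}

/-- helper5770's atlas from helper5771's atlas. -/
def atlas5770 (𝒜 : Atlas X 𝔹) : H5770.Atlas 𝔹 X where
  j₁ := 𝒜.φ₁
  j₂ := 𝒜.φ₂
  open₁ := 𝒜.isOpenImmersion₁
  open₂ := 𝒜.isOpenImmersion₂
  comm := 𝒜.comm
  cover x := by
    have hx : x ∈ Set.range 𝒜.φ₁ ∪ Set.range 𝒜.φ₂ := by rw [𝒜.cover]; trivial
    exact hx
  inter x₁ x₂ h := by
    have hx : 𝒜.φ₁ x₁ ∈ Set.range 𝒜.φ₁ ∩ Set.range 𝒜.φ₂ := ⟨⟨x₁, rfl⟩, ⟨x₂, h.symm⟩⟩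
    rw [𝒜.inter] at hx
    obtain ⟨z, hz⟩ := hx
    exact ⟨z, 𝒜.φ₁.isOpenEmbedding.injective (by simpa using hz)⟩

/-- A module which has a presentation on two charts covering `X` is quasi-coherent. -/
theorem isQuasicoherent_of_two_charts (F : X.Modules) {Y₁ Y₂ : Scheme.{u}} (j₁ : Y₁ ⟶ X)
    (j₂ : Y₂ ⟶ X) [IsOpenImmersion j₁] [IsOpenImmersion j₂]
    (hcov : ∀ x : X, x ∈ Set.range j₁ ∨ x ∈ Set.range j₂)
    (P₁ : Nonempty (F.restrict j₁).Presentation) (P₂ : Nonempty (F.restrict j₂).Presentation) :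
    F.IsQuasicoherent := by
  let Y : ULift.{u} Bool → Scheme.{u} := fun b => if b.down then Y₁ else Y₂
  let j : ∀ b, Y b ⟶ X := fun b => by
    rcases b with ⟨b⟩
    cases b
    · exact j₂
    · exact j₁
  have hj : ∀ b, IsOpenImmersion (j b) := by
    rintro ⟨b⟩
    cases b
    · exact (inferInstance : IsOpenImmersion j₂)
    · exact (inferInstance : IsOpenImmersion j₁)
  refine isQuasicoherent_of_charts F Y j (fun x => ?_) ?_
  · rcases hcov x with hx | hx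
    · exact ⟨⟨true⟩, hx⟩
    · exact ⟨⟨false⟩, hx⟩
  · rintro ⟨b⟩
    cases b
    · exact P₂
    · exact P₁

variable (𝒜 : Atlas X 𝔹) (N : GluedModule 𝔹)

set_option backward.isDefEq.respectTransparency false in
/-- `ofGlued N` is quasi-coherent. -/
theorem isQuasicoherent_ofGlued : (H5770.ofGlued N (atlas5770 𝒜)).IsQuasicoherent :=
  isQuasicoherent_of_two_charts _ 𝒜.φ₁ 𝒜.φ₂ (atlas5770 𝒜).cover
    ⟨SheafOfModules.Presentation.ofIsIso.{u, u, u} (H5770.ofGluedIso₁ N (atlas5770 𝒜)).inv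
      (presentationTildeTop _)⟩
    ⟨SheafOfModules.Presentation.ofIsIso.{u, u, u} (H5770.ofGluedIso₂ N (atlas5770 𝒜)).inv
      (presentationTildeTop _)⟩

/-- `N ≅ toGlued (ofGlued N)`. -/
def ofGluedIso :
    haveI := isQuasicoherent_ofGlued 𝒜 N
    N.Iso (𝒜.toGlued (H5770.ofGlued N (atlas5770 𝒜))) :=
  haveI := isQuasicoherent_ofGlued 𝒜 N
  { e₁ := H5770.ofGluedEquiv₁ N (atlas5770 𝒜)
    e₂ := H5770.ofGluedEquiv₂ N (atlas5770 𝒜)
    e₁₂ := H5770.ofGluedEquiv₁₂ N (atlas5770 𝒜)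
    comm₁ := fun n => (H5770.ofGluedSec_res₁ N (atlas5770 𝒜) n).symm
    comm₂ := fun n => (H5770.ofGluedSec_res₂ N (atlas5770 𝒜) n).symm }

/-- **P5**: every glued module over `𝔹` is `toGlued` of a quasi-coherent module. -/
theorem exists_toGlued_iso :
    ∃ (F : X.Modules) (_ : F.IsQuasicoherent), Nonempty (N.Iso (𝒜.toGlued F)) :=
  ⟨H5770.ofGlued N (atlas5770 𝒜), isQuasicoherent_ofGlued 𝒜 N, ⟨ofGluedIso 𝒜 N⟩⟩

end

end Fermat.Agent.S25.DICT.H5590
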