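/-
S25 package DICT, leaf P9 (helper5590): pullback of a quasi-coherent module along a point
`σ = Spec e ≫ φ₁` of the first chart of an atlas is `tilde (S ⊗[B₁, e] Γ(M, W₁))`; hence
`σ^* M ≅ O` iff the fibre is free of rank one (`IsBCMap` form of `DICT/UnivBC.lean`).
The first section (pullback of tilde) is helper4585's `SM/TildePullback.lean`, verbatim up to
the namespace.  No sorry.
-/
import Fermat.Agent.S25.DICT.AtlasDefs

set_option autoImplicit false

universe u

open CategoryTheory AlgebraicGeometry Opposite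

open ChangeOfRings

namespace Fermat.Agent.S25.DICT.H5590

/-! ### Pullback of `tilde` along `Spec φ` (helper4585) -/

section tildePullback

variable {R S : CommRingCat.{u}} (φ : R ⟶ S)

/-- Global sections of a pushforward along `Spec.map φ` are the global sections with scalars
restricted along `φ`. -/
noncomputable def pushforwardΓIso :
    Scheme.Modules.pushforward (Spec.map φ) ⋙ moduleSpecΓFunctor (R := R) ≅
      moduleSpecΓFunctor (R := S) ⋙ ModuleCat.restrictScalars φ.hom :=
  Functor.isoWhiskerRight (pushforwardCompModulesSpecToSheafIso φ)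
    (TopCat.Sheaf.forget _ _ ⋙ (evaluation _ _).obj (op ⊤))

/-- The adjunction `(Spec φ)^* ∘ ~ ⊣ res_φ ∘ Γ`. -/
noncomputable def tildePullbackAdj :
    (tilde.functor R ⋙ Scheme.Modules.pullback (Spec.map φ)) ⊣
      (moduleSpecΓFunctor (R := S) ⋙ ModuleCat.restrictScalars φ.hom) :=
  ((tilde.adjunction (R := R)).comp
    (Scheme.Modules.pullbackPushforwardAdjunction (Spec.map φ))).ofNatIsoRight (pushforwardΓIso φ)

/-- The adjunction `~ ∘ (S ⊗ -) ⊣ res_φ ∘ Γ`. -/
noncomputable def extendTildeAdj :
    (ModuleCat.extendScalars φ.hom ⋙ tilde.functor S) ⊣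
      (moduleSpecΓFunctor (R := S) ⋙ ModuleCat.restrictScalars φ.hom) :=
  (ModuleCat.extendRestrictScalarsAdj φ.hom).comp (tilde.adjunction (R := S))

/-- Pullback of `M^~` along `Spec φ` is `(S ⊗[R] M)^~`, naturally in `M`. -/
noncomputable def pullbackTildeNatIso :
    tilde.functor R ⋙ Scheme.Modules.pullback (Spec.map φ) ≅
      ModuleCat.extendScalars φ.hom ⋙ tilde.functor S :=
  (tildePullbackAdj φ).leftAdjointUniq (extendTildeAdj φ)

/-- Pullback of `M^~` along `Spec φ` is `(S ⊗[R] M)^~`. -/
noncomputable def pullbackTildeIso (M : ModuleCat.{u} R) :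
    (Scheme.Modules.pullback (Spec.map φ)).obj (tilde M) ≅
      tilde ((ModuleCat.extendScalars φ.hom).obj M) :=
  (pullbackTildeNatIso φ).app M

end tildePullback

/-! ### `ModuleCat.extendScalars` in universal-property form -/

section extend

variable {B S : Type u} [CommRing B] [CommRing S] (e : B →+* S) (P : ModuleCat.{u} B)

/-- `p ↦ 1 ⊗ p`, as an additive map into `ModuleCat.extendScalars e`. -/
noncomputable def extUnit : P →+ ((ModuleCat.extendScalars e).obj P : ModuleCat.{u} S) where
  toFun p := (1 : S) ⊗ₜ[B, e] p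
  map_zero' := TensorProduct.tmul_zero _ _
  map_add' _ _ := TensorProduct.tmul_add _ _ _

theorem extUnit_apply (p : P) : extUnit e P p = (1 : S) ⊗ₜ[B, e] p := rfl

/-- `ModuleCat.extendScalars e` has the universal property of base change along `e`. -/
theorem isBCMap_extUnit : IsBCMap e (extUnit e P) where
  map_smul b p :=
    ((ModuleCat.extendRestrictScalarsAdj e).unit.app P).hom.map_smul b p
  univ Q _ _ h hh := by
    let g₀ : P ⟶ (ModuleCat.restrictScalars e).obj (ModuleCat.of S Q) :=
      ModuleCat.ofHom (Y := (ModuleCat.restrictScalars e).obj (ModuleCat.of S Q))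
        { toFun := fun p => h p
          map_add' := fun x y => h.map_add x y
          map_smul' := fun b p => hh b p }
    let F : (ModuleCat.extendScalars e).obj P ⟶ ModuleCat.of S Q :=
      ((ModuleCat.extendRestrictScalarsAdj e).homEquiv _ _).symm g₀
    have hF : ∀ p, F.hom (extUnit e P p) = h p := by
      intro p
      have h1 := ModuleCat.extendRestrictScalarsAdj_homEquiv_apply (f := e) F p
      rw [Equiv.apply_symm_apply] at h1
      exact h1.symm
    refine ⟨F.hom, hF, ?_⟩
    intro g hg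
    have : ModuleCat.ofHom g = F := by
      apply ModuleCat.ExtendScalars.hom_ext
      intro p
      exact (hg p).trans (hF p).symm
    rw [← this]
    rfl

/-- The fibre is free of rank one iff there is a universal `e`-semilinear map to `S`. -/
theorem nonempty_extendScalars_iso_iff :
    Nonempty ((ModuleCat.extendScalars e).obj P ≅ ModuleCat.of S S) ↔
      ∃ e' : P →+ S, IsBCMap e e' := by
  constructor
  · rintro ⟨i⟩
    exact ⟨_, (isBCMap_extUnit e P).comp_equiv i.toLinearEquiv⟩
  · rintro ⟨e', he'⟩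
    exact ⟨((isBCMap_extUnit e P).equiv he').toModuleIso⟩

end extend

/-! ### Leaf P9 -/

section leaf

variable {R : Type u} [CommRing R] {𝔹 : TwoChart R} {X : Scheme.{u}} (𝒜 : Atlas X 𝔹)

/-- Sections over the first chart, as an object of `ModuleCat B₁`. -/
noncomputable def secMod (M : X.Modules) : ModuleCat.{u} 𝔹.B₁ :=
  ((modulesSpecToSheaf (R := CommRingCat.of 𝔹.B₁)).obj (M.restrict 𝒜.φ₁)).presheaf.obj (op ⊤)

/-- A quasi-coherent module restricted to the first chart is the tilde of its sections. -/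
noncomputable def restrictIsoTilde (M : X.Modules) [M.IsQuasicoherent] :
    M.restrict 𝒜.φ₁ ≅ tilde (secMod 𝒜 M) :=
  haveI : IsIso (Scheme.Modules.fromTildeΓ (R := CommRingCat.of 𝔹.B₁) (M.restrict 𝒜.φ₁)) :=
    Scheme.Modules.isIso_fromTildeΓ_of_isQuasicoherent (R := CommRingCat.of 𝔹.B₁)
      (M.restrict 𝒜.φ₁)
  (asIso (Scheme.Modules.fromTildeΓ (R := CommRingCat.of 𝔹.B₁) (M.restrict 𝒜.φ₁))).symm

/-- The pullback of a quasi-coherent module along a point of the first chart. -/
noncomputable def pullbackPointIso {S : Type u} [CommRing S] (e : 𝔹.B₁ →+* S)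
    (M : X.Modules) [M.IsQuasicoherent] :
    (Scheme.Modules.pullback (Spec.map (CommRingCat.ofHom e) ≫ 𝒜.φ₁)).obj M ≅
      tilde ((ModuleCat.extendScalars e).obj (secMod 𝒜 M)) :=
  ((Scheme.Modules.pullbackComp (Spec.map (CommRingCat.ofHom e)) 𝒜.φ₁).app M).symm ≪≫
    (Scheme.Modules.pullback (Spec.map (CommRingCat.ofHom e))).mapIso
      ((Scheme.Modules.restrictFunctorIsoPullback 𝒜.φ₁).app M).symm ≪≫
    (Scheme.Modules.pullback (Spec.map (CommRingCat.ofHom e))).mapIso (restrictIsoTilde 𝒜 M) ≪≫
    pullbackTildeIso (CommRingCat.ofHom e) (secMod 𝒜 M)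

/-- **P9** pullback along a point `σ = Spec e ≫ φ₁` of the first chart: `σ^* M` is trivial iff
the fibre `S ⊗[B₁, e] Γ(M, W₁)` is free of rank one (in `IsBCMap` form, see `UnivBC.lean`). -/
theorem pullback_point_iso_unit_iff {S : Type u} [CommRing S] (e : 𝔹.B₁ →+* S)
    (σ : Spec (CommRingCat.of S) ⟶ X) (hσ : σ = Spec.map (CommRingCat.ofHom e) ≫ 𝒜.φ₁)
    (M : X.Modules) [M.IsQuasicoherent] :
    Nonempty ((Scheme.Modules.pullback σ).obj M ≅
        SheafOfModules.unit (Spec (CommRingCat.of S)).ringCatSheaf) ↔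
      ∃ e' : (𝒜.toGlued M).N₁ →+ S, IsBCMap e e' := by
  subst hσ
  have h1 : Nonempty ((Scheme.Modules.pullback (Spec.map (CommRingCat.ofHom e) ≫ 𝒜.φ₁)).obj M ≅
        SheafOfModules.unit (Spec (CommRingCat.of S)).ringCatSheaf) ↔
      Nonempty ((ModuleCat.extendScalars e).obj (secMod 𝒜 M) ≅
        ModuleCat.of S S) := by
    constructor
    · rintro ⟨i⟩
      exact ⟨(tilde.fullyFaithfulFunctor (R := CommRingCat.of S)).preimageIso
        ((pullbackPointIso 𝒜 e M).symm ≪≫ i ≪≫ (tildeSelf (R := CommRingCat.of S)).symm)⟩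
    · rintro ⟨i⟩
      exact ⟨pullbackPointIso 𝒜 e M ≪≫ (tilde.functor (CommRingCat.of S)).mapIso i ≪≫
        tildeSelf (R := CommRingCat.of S)⟩
  rw [h1]
  exact nonempty_extendScalars_iso_iff e (secMod 𝒜 M)

end leaf

end Fermat.Agent.S25.DICT.H5590
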